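/-
TEAM CFT, sub-project P2 (global class field theory), elementary number theory input for the
reciprocity law:  existence of cyclic cyclotomic characters in which finitely many given integers
have order divisible by a given power of `p`, with conductor prime to any given integer.
No Dirichlet / Chebotarev is used.
-/
import Mathlib

set_option autoImplicit false

namespace Fermat.Agent.CFT.Global.CycChar

open Finset

/-- `p²` does not divide `1 + a + ⋯ + a^(p-1)` for `p` odd. -/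
lemma padicVal_geom_odd {p : ℕ} [hp : Fact p.Prime] (hodd : Odd p) {a : ℕ} (ha : 2 ≤ a)
    (hdvd : p ∣ ∑ i ∈ range p, a ^ i) : padicValNat p (∑ i ∈ range p, a ^ i) = 1 := by
  have hgeom : (∑ i ∈ range p, a ^ i) * (a - 1) = a ^ p - 1 := by
    have := Nat.geomSum_eq ha p
    have h2 : (a - 1) ∣ a ^ p - 1 := by
      simpa using Nat.sub_dvd_pow_sub_pow a 1 p
    rw [this, Nat.div_mul_cancel h2]
  have hΦ0 : (∑ i ∈ range p, a ^ i) ≠ 0 := by
    have : 0 < ∑ i ∈ range p, a ^ i :=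
      Finset.sum_pos (fun i _ => by positivity) ⟨0, by simp [hp.out.pos]⟩
    omega
  have ha1 : a - 1 ≠ 0 := by omega
  -- `a ≡ 1 mod p`
  have h1 : p ∣ a ^ p - 1 := by rw [← hgeom]; exact Dvd.dvd.mul_right hdvd _
  have hapos : 1 ≤ a ^ p := Nat.one_le_pow _ _ (by omega)
  have h2 : ((a : ZMod p)) = 1 := by
    have h3 : ((a ^ p - 1 : ℕ) : ZMod p) = 0 := (ZMod.natCast_eq_zero_iff _ _).2 h1
    rw [Nat.cast_sub hapos] at h3
    push_cast at h3
    rw [ZMod.pow_card] at h3
    exact sub_eq_zero.1 h3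
  have h4 : p ∣ a - 1 := by
    rw [← ZMod.natCast_eq_zero_iff, Nat.cast_sub (by omega)]
    simp [h2]
  have h5 : ¬ p ∣ a := by
    intro h
    have : (a : ZMod p) = 0 := (ZMod.natCast_eq_zero_iff _ _).2 h
    rw [h2] at this
    exact one_ne_zero this
  have h6 := padicValNat.pow_sub_pow (p := p) hodd (x := a) (y := 1) (by omega) h4 h5
    (n := p) hp.out.ne_zero
  rw [one_pow, ← hgeom, padicValNat.mul hΦ0 ha1, padicValNat_self] at h6
  omega

/-- A prime `r ≠ p` dividing `1 + a + ⋯ + a^(p-1)`, `a = q^(p^K)`, `K ≥ 1`. -/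
lemma exists_prime_dvd_geom (p : ℕ) [hp : Fact p.Prime] (q : ℕ) (hq : 2 ≤ q) (K : ℕ) :
    ∃ r : ℕ, r.Prime ∧ r ≠ p ∧ r ∣ ∑ i ∈ range p, (q ^ p ^ (K + 1)) ^ i := by
  set a := q ^ p ^ (K + 1) with ha
  have ha2 : 2 ≤ a := by
    calc 2 ≤ q := hq
      _ = q ^ 1 := (pow_one q).symm
      _ ≤ q ^ p ^ (K + 1) := Nat.pow_le_pow_right (by omega) (Nat.one_le_pow _ _ hp.out.pos)
  by_contra hcon
  push Not at hcon
  have hΦp : p < ∑ i ∈ range p, a ^ i := by
    calc p = ∑ i ∈ range p, 1 := by simp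
      _ < ∑ i ∈ range p, a ^ i := by
        apply Finset.sum_lt_sum
        · intro i _; exact Nat.one_le_pow _ _ (by omega)
        · exact ⟨1, by simp [hp.out.one_lt], by simp; omega⟩
  have hΦ0 : (∑ i ∈ range p, a ^ i) ≠ 0 := by omega
  have hpow := Nat.eq_prime_pow_of_unique_prime_dvd (p := p) hΦ0
    (fun {d} hd hdvd => by
      by_contra hne
      exact hcon d hd hne hdvd)
  set j := (∑ i ∈ range p, a ^ i).primeFactorsList.length with hj
  have hj2 : 2 ≤ j := by
    by_contra h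
    have : j = 0 ∨ j = 1 := by omega
    rcases this with h | h
    · rw [h, pow_zero] at hpow; have := hp.out.two_le; omega
    · rw [h, pow_one] at hpow; omega
  have hdvd : p ∣ ∑ i ∈ range p, a ^ i := by
    rw [hpow]; exact dvd_pow_self p (by omega)
  rcases hp.out.eq_two_or_odd' with h2 | hodd
  · -- `p = 2`
    subst h2
    have hsum : ∑ i ∈ range 2, a ^ i = 1 + a := by simp [Finset.sum_range_succ]
    have h4 : 4 ∣ 1 + a := by
      rw [← hsum, hpow]
      exact pow_dvd_pow 2 hj2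
    have hsq : a = (q ^ 2 ^ K) ^ 2 := by rw [ha, ← pow_mul, pow_succ]
    have hodd : (q ^ 2 ^ K) % 2 = 1 := by
      by_contra h
      have h0 : (q ^ 2 ^ K) % 2 = 0 := by omega
      have : 2 ∣ a := by
        rw [hsq]; exact Dvd.dvd.pow (Nat.dvd_of_mod_eq_zero h0) (by norm_num)
      omega
    have : (q ^ 2 ^ K) ^ 2 % 4 = 1 := by
      obtain ⟨m, hm⟩ : ∃ m, q ^ 2 ^ K = 2 * m + 1 := ⟨(q ^ 2 ^ K) / 2, by omega⟩
      rw [hm]
      have : (2 * m + 1) ^ 2 = 4 * (m ^ 2 + m) + 1 := by ring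
      omega
    rw [← hsq] at this
    omega
  · have := padicVal_geom_odd hodd ha2 hdvd
    rw [hpow, padicValNat.prime_pow] at this
    omega

/-- For `q ≥ 2` and every `K` there is a prime `r ≠ p` such that `q` is a unit of exact order
`p^(K+2)` modulo `r`. -/
theorem exists_prime_orderOf (p : ℕ) [hp : Fact p.Prime] (q : ℕ) (hq : 2 ≤ q) (K : ℕ) :
    ∃ r : ℕ, r.Prime ∧ r ≠ p ∧ p ^ (K + 2) < r ∧
      ∃ u : (ZMod r)ˣ, (u : ZMod r) = (q : ZMod r) ∧ orderOf u = p ^ (K + 2) := by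
  obtain ⟨r, hr, hrp, hdvd⟩ := exists_prime_dvd_geom p q hq K
  have : Fact r.Prime := ⟨hr⟩
  set a : ZMod r := (q : ZMod r) ^ p ^ (K + 1) with ha
  have hΦ : ∑ i ∈ range p, a ^ i = 0 := by
    have := (ZMod.natCast_eq_zero_iff _ _).2 hdvd
    push_cast at this
    exact this
  have hap : a ^ p = 1 := by
    have := geom_sum_mul a p
    rw [hΦ, zero_mul] at this
    exact (sub_eq_zero.1 this.symm)
  have ha1 : a ≠ 1 := by
    intro h
    rw [h] at hΦ
    simp only [one_pow, sum_const, card_range, nsmul_eq_mul, mul_one] at hΦ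
    have := (ZMod.natCast_eq_zero_iff _ _).1 hΦ
    exact hrp ((Nat.prime_dvd_prime_iff_eq hr hp.out).1 this)
  have hq1 : (q : ZMod r) ^ p ^ (K + 2) = 1 := by
    rw [pow_succ p (K + 1), pow_mul]; exact hap
  have hunit : IsUnit (q : ZMod r) :=
    IsUnit.of_pow_eq_one hq1 (pow_ne_zero _ hp.out.ne_zero)
  obtain ⟨u, hu⟩ := hunit
  have hord : orderOf u = p ^ (K + 2) := by
    apply orderOf_eq_prime_pow
    · intro h
      apply ha1
      have := congrArg (Units.val) h
      simpa [hu] using this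
    · apply Units.ext
      simpa [hu] using hq1
  refine ⟨r, hr, hrp, ?_, u, hu, hord⟩
  have h1 : orderOf u ∣ r - 1 := by
    have := orderOf_dvd_card (x := u)
    rwa [ZMod.card_units_eq_totient, Nat.totient_prime hr] at this
  have h2 : p ^ (K + 2) ≤ r - 1 := by
    rw [← hord]; exact Nat.le_of_dvd (by have := hr.two_le; omega) h1
  have := hr.two_le
  omega

section Order

variable {W : Type*} [CommGroup W] {p : ℕ}

lemma orderOf_mul_of_lt (hp : p.Prime) {x y : W} {b c : ℕ}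
    (hx : orderOf x = p ^ b) (hy : orderOf y = p ^ c) (hbc : b < c) :
    orderOf (x * y) = p ^ c := by
  rw [← hy]
  apply (Commute.all x y).orderOf_mul_eq_right_of_forall_prime_mul_dvd
  · rw [← orderOf_pos_iff, hy]; exact pow_pos hp.pos _
  · intro l hl hdvd
    rw [hx] at hdvd ⊢
    have : l = p := (Nat.prime_dvd_prime_iff_eq hl hp).1 (hl.dvd_of_dvd_pow hdvd)
    rw [this, hy, ← pow_succ']
    exact pow_dvd_pow p hbc

lemma orderOf_mul_of_ne (hp : p.Prime) {x y : W} {b c : ℕ}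
    (hx : orderOf x = p ^ b) (hy : orderOf y = p ^ c) (hbc : b ≠ c) :
    orderOf (x * y) = p ^ max b c := by
  rcases lt_or_gt_of_ne hbc with h | h
  · rw [max_eq_right h.le]; exact orderOf_mul_of_lt hp hx hy h
  · rw [max_eq_left h.le, mul_comm]; exact orderOf_mul_of_lt hp hy hx h

lemma orderOf_pow_pow (hp : p.Prime) {y : W} {c : ℕ} (hy : orderOf y = p ^ c) (a : ℕ) :
    orderOf (y ^ p ^ a) = p ^ (c - a) := by
  rw [orderOf_pow' _ (pow_ne_zero _ hp.ne_zero), hy]
  rcases le_total a c with h | h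
  · rw [Nat.gcd_eq_right (pow_dvd_pow p h), Nat.pow_div h hp.pos]
  · rw [Nat.gcd_eq_left (pow_dvd_pow p h), Nat.div_self (pow_pos hp.pos _),
      Nat.sub_eq_zero_of_le h, pow_zero]

end Order

/-- A character of `(ℤ/r)ˣ`, `r` prime, with values of `p`-power order, preserving the order of a
given element of `p`-power order. -/
lemma exists_char_prime (p : ℕ) [hp : Fact p.Prime] (r : ℕ) (hr : r.Prime) (u : (ZMod r)ˣ)
    (K : ℕ) (hu : orderOf u = p ^ K) :
    ∃ ψ : (ZMod r)ˣ →* ℂˣ, (∀ x, ∃ j, orderOf (ψ x) = p ^ j) ∧ orderOf (ψ u) = p ^ K := by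
  have : Fact r.Prime := ⟨hr⟩
  obtain ⟨g, hg⟩ := IsCyclic.exists_generator (α := (ZMod r)ˣ)
  have hcard : Nat.card (ZMod r)ˣ ≠ 0 := Nat.card_pos.ne'
  set n := Nat.card (ZMod r)ˣ with hn
  have : NeZero n := ⟨hcard⟩
  have hζ : IsPrimitiveRoot (Complex.exp (2 * Real.pi * Complex.I / n)) n :=
    Complex.isPrimitiveRoot_exp n hcard
  obtain ⟨ζ, hζu⟩ : ∃ ζ : ℂˣ, IsPrimitiveRoot ζ n := ⟨hζ.toRootsOfUnity.1, by
    rw [← IsPrimitiveRoot.coe_units_iff]; exact hζ⟩
  have hζg : orderOf ζ ∣ orderOf g := by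
    rw [← hζu.eq_orderOf, orderOf_eq_card_of_forall_mem_zpowers hg]
  let φ := monoidHomOfForallMemZpowers hg hζg
  have hφg : φ g = ζ := monoidHomOfForallMemZpowers_apply_gen hg hζg
  have hφinj : Function.Injective φ := by
    rw [injective_iff_map_eq_one]
    intro a ha
    obtain ⟨k, rfl⟩ := (mem_powers_iff_mem_zpowers.2 (hg a))
    simp only [map_pow, hφg] at ha
    obtain ⟨l, rfl⟩ := (hζu.pow_eq_one_iff_dvd k).mp ha
    simp only [pow_mul, hn, pow_card_eq_one', one_pow]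
  -- prime to `p` part of `n`
  obtain ⟨e, m, hm, hnm⟩ := Nat.exists_eq_pow_mul_and_not_dvd hcard p hp.out.ne_one
  refine ⟨φ ^ m, fun x => ?_, ?_⟩
  · have h1 : ((φ ^ m) x) ^ p ^ e = 1 := by
      rw [MonoidHom.pow_apply, ← pow_mul, mul_comm, ← hnm, ← map_pow, hn, pow_card_eq_one', map_one]
    obtain ⟨j, _, hj⟩ := (Nat.dvd_prime_pow hp.out).1 (orderOf_dvd_of_pow_eq_one h1)
    exact ⟨j, hj⟩
  · rw [MonoidHom.pow_apply, ← map_pow, orderOf_injective φ hφinj, Nat.Coprime.orderOf_pow, hu]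
    rw [hu]
    exact Nat.Coprime.pow_left _ ((Nat.Prime.coprime_iff_not_dvd hp.out).2 hm)

/-- Main construction (character form, exponent `k+1`). -/
theorem exists_char_succ (p : ℕ) [hp : Fact p.Prime] (k : ℕ) (T : Finset ℕ)
    (hT : ∀ q ∈ T, 2 ≤ q) : ∀ (N : ℕ), N ≠ 0 →
    ∃ (r : ℕ) (χ : (ZMod r)ˣ →* ℂˣ), r ≠ 0 ∧ r.Coprime N ∧
      (∀ x, ∃ j, orderOf (χ x) = p ^ j) ∧
      ∀ q ∈ T, ∃ u : (ZMod r)ˣ, (u : ZMod r) = (q : ZMod r) ∧ p ^ (k + 1) ∣ orderOf (χ u) := by
  induction T using Finset.induction_on with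
  | empty =>
    intro N _
    exact ⟨1, 1, one_ne_zero, Nat.coprime_one_left N, fun x => ⟨0, by simp⟩, by simp⟩
  | insert q0 T hq0 ih =>
    intro N hN
    have hq0' : 2 ≤ q0 := hT q0 (mem_insert_self _ _)
    obtain ⟨r, χ, hr0, hrN, hχ, hχT⟩ := ih (fun q hq => hT q (mem_insert_of_mem hq)) (N * q0)
      (mul_ne_zero hN (by omega))
    set B := N * r * (∏ q ∈ T, q) * q0 with hB
    have hprod : (∏ q ∈ T, q) ≠ 0 :=
      Finset.prod_ne_zero_iff.2 (fun q hq => by have := hT q (mem_insert_of_mem hq); omega)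
    have hB0 : B ≠ 0 := mul_ne_zero (mul_ne_zero (mul_ne_zero hN hr0) hprod) (by omega)
    set K := B + k + T.card with hK
    obtain ⟨r0, hr0p, hr0ne, hr0big, u0, hu0, hu0ord⟩ := exists_prime_orderOf p q0 hq0' K
    have hBlt : B < r0 := by
      have : K + 2 < p ^ (K + 2) := Nat.lt_pow_self hp.out.one_lt
      omega
    have hcopB : r0.Coprime B :=
      (Nat.Prime.coprime_iff_not_dvd hr0p).2 (fun h => by
        have := Nat.le_of_dvd (Nat.pos_of_ne_zero hB0) h; omega)
    have hcopN : r0.Coprime N :=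
      Nat.Coprime.coprime_dvd_right (by rw [hB, mul_assoc, mul_assoc]; exact Dvd.intro _ rfl) hcopB
    have hcopr : r0.Coprime r :=
      Nat.Coprime.coprime_dvd_right
        (by rw [hB, mul_comm N r, mul_assoc, mul_assoc]; exact Dvd.intro _ rfl) hcopB
    have hcopq0 : r0.Coprime q0 :=
      Nat.Coprime.coprime_dvd_right (by rw [hB]; exact Dvd.intro_left _ rfl) hcopB
    have hcopT : ∀ q ∈ T, r0.Coprime q := fun q hq =>
      Nat.Coprime.coprime_dvd_right
        (by rw [hB]; exact Dvd.dvd.mul_right (Dvd.dvd.mul_left (Finset.dvd_prod_of_mem _ hq) _) _)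
        hcopB
    obtain ⟨ψ, hψ, hψu0⟩ := exists_char_prime p r0 hr0p u0 (K + 2) hu0ord
    set R := r * r0 with hR
    let πr : (ZMod R)ˣ →* (ZMod r)ˣ := ZMod.unitsMap (Dvd.intro _ rfl)
    let π0 : (ZMod R)ˣ →* (ZMod r0)ˣ := ZMod.unitsMap (Dvd.intro_left _ rfl)
    -- coprimality of the elements of `insert q0 T` to `R`
    have hcopR : ∀ q ∈ insert q0 T, q.Coprime R := by
      intro q hq
      rcases mem_insert.1 hq with rfl | hq
      · exact Nat.Coprime.mul_right (Nat.Coprime.coprime_dvd_right (Dvd.intro_left _ rfl) hrN).symm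
          hcopq0.symm
      · obtain ⟨u, hu, -⟩ := hχT q hq
        have h1 : IsUnit (q : ZMod r) := hu ▸ u.isUnit
        exact Nat.Coprime.mul_right ((ZMod.isUnit_iff_coprime q r).1 h1) (hcopT q hq).symm
    let U : ℕ → (ZMod R)ˣ := fun q => if h : q.Coprime R then ZMod.unitOfCoprime q h else 1
    have hU : ∀ q ∈ insert q0 T, ((U q : (ZMod R)ˣ) : ZMod R) = (q : ZMod R) := by
      intro q hq
      simp only [U, dif_pos (hcopR q hq), ZMod.coe_unitOfCoprime]
    have hπr : ∀ q ∈ insert q0 T, ((πr (U q) : (ZMod r)ˣ) : ZMod r) = (q : ZMod r) := by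
      intro q hq
      simp only [πr, ZMod.unitsMap_def, Units.coe_map, MonoidHom.coe_coe, hU q hq, map_natCast]
    have hπ0 : ∀ q ∈ insert q0 T, ((π0 (U q) : (ZMod r0)ˣ) : ZMod r0) = (q : ZMod r0) := by
      intro q hq
      simp only [π0, ZMod.unitsMap_def, Units.coe_map, MonoidHom.coe_coe, hU q hq, map_natCast]
    choose b hb using fun q => hχ (πr (U q))
    choose o ho using fun q => hψ (π0 (U q))
    have hπ0q0 : π0 (U q0) = u0 := Units.ext (by rw [hπ0 q0 (mem_insert_self _ _), hu0])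
    have hoq0 : o q0 = K + 2 := by
      have := ho q0
      rw [hπ0q0, hψu0] at this
      exact (Nat.pow_right_injective hp.out.two_le this).symm
    -- choice of the exponent `a`
    let bad : Finset ℕ := insert (K + 2 - b q0) (T.image (fun q => o q - b q))
    have hbadcard : bad.card < (range (K + 2 - k)).card := by
      have h1 : bad.card ≤ (T.image (fun q => o q - b q)).card + 1 := Finset.card_insert_le _ _
      have h2 : (T.image (fun q => o q - b q)).card ≤ T.card := Finset.card_image_le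
      rw [card_range]
      omega
    obtain ⟨a, ha, habad⟩ := Finset.exists_mem_notMem_of_card_lt_card hbadcard
    rw [mem_range] at ha
    have habad0 : a ≠ K + 2 - b q0 := fun h => habad (by rw [h]; exact mem_insert_self _ _)
    have habadT : ∀ q ∈ T, a ≠ o q - b q := fun q hq h =>
      habad (mem_insert_of_mem (mem_image.2 ⟨q, hq, h.symm⟩))
    refine ⟨R, (χ.comp πr) * ((ψ.comp π0) ^ (p ^ a)), mul_ne_zero hr0 hr0p.ne_zero,
      Nat.Coprime.mul_left (Nat.Coprime.coprime_dvd_right (Dvd.intro _ rfl) hrN) hcopN, ?_, ?_⟩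
    · intro x
      obtain ⟨j1, hj1⟩ := hχ (πr x)
      obtain ⟨j2, hj2⟩ := hψ (π0 x)
      have h1 : (((χ.comp πr) * ((ψ.comp π0) ^ (p ^ a))) x) ^ p ^ (j1 + j2) = 1 := by
        simp only [MonoidHom.mul_apply, MonoidHom.pow_apply, MonoidHom.comp_apply, mul_pow]
        have e1 : (χ (πr x)) ^ p ^ (j1 + j2) = 1 := by
          rw [pow_add, pow_mul, ← hj1, pow_orderOf_eq_one, one_pow]
        have e2 : (ψ (π0 x)) ^ p ^ (j1 + j2) = 1 := by
          rw [pow_add, mul_comm, pow_mul, ← hj2, pow_orderOf_eq_one, one_pow]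
        rw [e1, ← pow_mul, mul_comm (p ^ a), pow_mul, e2, one_pow, one_mul]
      obtain ⟨j, _, hj⟩ := (Nat.dvd_prime_pow hp.out).1 (orderOf_dvd_of_pow_eq_one h1)
      exact ⟨j, hj⟩
    · intro q hq
      refine ⟨U q, hU q hq, ?_⟩
      simp only [MonoidHom.mul_apply, MonoidHom.pow_apply, MonoidHom.comp_apply]
      have hy := orderOf_pow_pow hp.out (ho q) a
      rcases mem_insert.1 hq with rfl | hqT
      · have hne : b q ≠ o q - a := by rw [hoq0]; omega
        rw [orderOf_mul_of_ne hp.out (hb q) hy hne]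
        apply pow_dvd_pow
        rw [hoq0]
        exact le_max_of_le_right (by omega)
      · obtain ⟨u, hu, hdvd⟩ := hχT q hqT
        have hu' : πr (U q) = u := Units.ext (by rw [hπr q hq, hu])
        rw [← hu', hb q] at hdvd
        have hbk : k + 1 ≤ b q := (Nat.pow_dvd_pow_iff_le_right hp.out.one_lt).1 hdvd
        have hne : b q ≠ o q - a := by have := habadT q hqT; omega
        rw [orderOf_mul_of_ne hp.out (hb q) hy hne]
        exact pow_dvd_pow _ (le_max_of_le_left hbk)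

/-- **Cyclic cyclotomic characters with prescribed local orders** (quotient form).
For a prime `p`, a finite set `T` of integers `≥ 2`, `N ≠ 0` and `k`, there are `r` prime to `N`
and a subgroup `H` of `(ℤ/r)ˣ` with cyclic quotient of `p`-power order such that every `q ∈ T` is
a unit mod `r` whose image in `(ℤ/r)ˣ/H` has order divisible by `p^k`. -/
theorem exists_cyclic_quotient (p : ℕ) [hp : Fact p.Prime] (k : ℕ) (T : Finset ℕ)
    (hT : ∀ q ∈ T, 2 ≤ q) (N : ℕ) (hN : N ≠ 0) :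
    ∃ (r : ℕ) (H : Subgroup (ZMod r)ˣ), r ≠ 0 ∧ r.Coprime N ∧ IsCyclic ((ZMod r)ˣ ⧸ H) ∧
      (∃ j, Nat.card ((ZMod r)ˣ ⧸ H) = p ^ j) ∧
      ∀ q ∈ T, ∃ u : (ZMod r)ˣ, (u : ZMod r) = (q : ZMod r) ∧
        p ^ k ∣ orderOf (u : (ZMod r)ˣ ⧸ H) := by
  obtain ⟨r, χ, hr0, hrN, hχ, hχT⟩ := exists_char_succ p k T hT N hN
  have : NeZero r := ⟨hr0⟩
  have hinj : Function.Injective (QuotientGroup.kerLift χ) := QuotientGroup.kerLift_injective χ
  have hcyc : IsCyclic ((ZMod r)ˣ ⧸ χ.ker) :=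
    isCyclic_of_injective_ringHom ((Units.coeHom ℂ).comp (QuotientGroup.kerLift χ))
      (Units.val_injective.comp hinj)
  refine ⟨r, χ.ker, hr0, hrN, hcyc, ?_, ?_⟩
  · obtain ⟨g, hg⟩ := hcyc.exists_generator
    obtain ⟨g', rfl⟩ := QuotientGroup.mk_surjective g
    obtain ⟨j, hj⟩ := hχ g'
    refine ⟨j, ?_⟩
    rw [← orderOf_eq_card_of_forall_mem_zpowers hg, ← orderOf_injective _ hinj,
      QuotientGroup.kerLift_mk, hj]
  · intro q hq
    obtain ⟨u, hu, hdvd⟩ := hχT q hq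
    refine ⟨u, hu, ?_⟩
    rw [← orderOf_injective _ hinj, QuotientGroup.kerLift_mk]
    exact (pow_dvd_pow p (Nat.le_succ k)).trans hdvd

end Fermat.Agent.CFT.Global.CycChar
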